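import Mathlib
import Fermat.Agent.LT.T2.H973.ArchSpec
import Fermat.Agent.LT.T2.H472.LocCont

/-!
# Row LT, tower T2, sub-leaf T2.10.08.03 `WhMeanC` (helper600) -- OFF-MAIN

The mean value property of `A0.MeanValueComplex` passes from a bounded continuous `Φ` to its
Whittaker coefficient `W = wh ψ ν D Φ` (Fubini on `D × [0, 2π] × [0, π]`).
Spec: `LT/T2/H973/ArchSpec.lean` of helper973 (sha256 6e234a4a0ea7), registry row 1201.
-/

set_option autoImplicit false

open IsDedekindDomain NumberField MeasureTheory AutomorphicForm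
open Fermat.Agent.LT.H556.A0
open scoped ComplexConjugate

noncomputable section

namespace Fermat.Agent.LT.T2.H600

open Fermat.Agent.LT.T2.H941 Fermat.Agent.LT.T2.H973

/-! ## 1. An abstract Fubini lemma -/

/-- Fubini for a bounded continuous function on `X × ℝ × ℝ`, finite measure on `X`, rectangle
in `ℝ × ℝ`. -/
theorem fubini_rect600 {X : Type} [TopologicalSpace X] [MeasurableSpace X]
    [OpensMeasurableSpace X] (μ : Measure X) [IsFiniteMeasure μ]
    (F : X → ℝ → ℝ → ℂ)
    (hF : Continuous fun q : (ℝ × ℝ) × X => F q.2 q.1.1 q.1.2)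
    (C : ℝ) (hC : ∀ x a b, ‖F x a b‖ ≤ C) {a₁ a₂ b₁ b₂ : ℝ} (ha : a₁ ≤ a₂) (hb : b₁ ≤ b₂) :
    (∫ α in a₁..a₂, ∫ β in b₁..b₂, ∫ x, F x α β ∂μ)
      = ∫ x, (∫ α in a₁..a₂, ∫ β in b₁..b₂, F x α β) ∂μ := by
  set μα : Measure ℝ := volume.restrict (Set.Ioc a₁ a₂) with hμα
  set μβ : Measure ℝ := volume.restrict (Set.Ioc b₁ b₂) with hμβ
  have : IsFiniteMeasure μα := ⟨by rw [hμα, Measure.restrict_apply_univ]; simp⟩
  have : IsFiniteMeasure μβ := ⟨by rw [hμβ, Measure.restrict_apply_univ]; simp⟩
  -- integrability on the triple product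
  have hmeas : AEStronglyMeasurable (fun q : (ℝ × ℝ) × X => F q.2 q.1.1 q.1.2)
      ((μα.prod μβ).prod μ) := hF.aestronglyMeasurable
  have hint : Integrable (fun q : (ℝ × ℝ) × X => F q.2 q.1.1 q.1.2) ((μα.prod μβ).prod μ) :=
    Integrable.of_bound hmeas C (Filter.Eventually.of_forall fun q => hC _ _ _)
  -- integrability of the slices
  have hslice : ∀ x : X, Integrable (fun p : ℝ × ℝ => F x p.1 p.2) (μα.prod μβ) := by
    intro x
    have hc : Continuous fun p : ℝ × ℝ => F x p.1 p.2 :=
      hF.comp (Continuous.prodMk continuous_id continuous_const)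
    exact Integrable.of_bound hc.aestronglyMeasurable C
      (Filter.Eventually.of_forall fun p => hC _ _ _)
  have hI : Integrable (fun p : ℝ × ℝ => ∫ x, F x p.1 p.2 ∂μ) (μα.prod μβ) :=
    hint.integral_prod_left
  calc (∫ α in a₁..a₂, ∫ β in b₁..b₂, ∫ x, F x α β ∂μ)
      = ∫ α, ∫ β, (∫ x, F x α β ∂μ) ∂μβ ∂μα := by
        rw [intervalIntegral.integral_of_le ha]
        refine integral_congr_ae (Filter.Eventually.of_forall fun α => ?_)
        exact intervalIntegral.integral_of_le hb
    _ = ∫ p, (∫ x, F x p.1 p.2 ∂μ) ∂(μα.prod μβ) := (integral_prod _ hI).symm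
    _ = ∫ x, (∫ p, F x p.1 p.2 ∂(μα.prod μβ)) ∂μ :=
        integral_integral_swap (f := fun (p : ℝ × ℝ) (x : X) => F x p.1 p.2) hint
    _ = ∫ x, (∫ α in a₁..a₂, ∫ β in b₁..b₂, F x α β) ∂μ := by
        refine integral_congr_ae (Filter.Eventually.of_forall fun x => ?_)
        show (∫ p, F x p.1 p.2 ∂(μα.prod μβ)) = ∫ α in a₁..a₂, ∫ β in b₁..b₂, F x α β
        rw [integral_prod _ (hslice x), intervalIntegral.integral_of_le ha]
        refine integral_congr_ae (Filter.Eventually.of_forall fun α => ?_)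
        exact (intervalIntegral.integral_of_le hb).symm

/-! ## 2. Continuity of the pieces -/

variable {K : Type} [Field K] [NumberField K]

/-- `x ↦ n(x)` is continuous. -/
theorem continuous_unip600 : Continuous (T3.unip K) := by
  rw [Units.continuous_iff]
  constructor
  · refine continuous_matrix fun i j => ?_
    fin_cases i <;> fin_cases j
    · exact continuous_const
    · exact continuous_id
    · exact continuous_const
    · exact continuous_const
  · refine continuous_matrix fun i j => ?_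
    fin_cases i <;> fin_cases j
    · exact continuous_const
    · exact continuous_neg
    · exact continuous_const
    · exact continuous_const

theorem continuous_rotZ600 : Continuous rotZ := by
  refine continuous_matrix fun i j => ?_
  fin_cases i <;> fin_cases j <;> simp [rotZ] <;> fun_prop

theorem continuous_rotY600 : Continuous rotY := by
  refine continuous_matrix fun i j => ?_
  fin_cases i <;> fin_cases j <;> simp [rotY] <;> fun_prop

/-- The family `Y` of `A0.MeanValueComplex` is jointly continuous. -/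
theorem continuous_family600 (w : InfinitePlace K) (d : ℝ) (Y : ℝ → ℝ → G K)
    (hY : ∀ α β : ℝ, IsLocalAtInf w (Y α β) ∧ infComp w (Y α β) = rotZ α * rotY β * torus d) :
    Continuous fun p : ℝ × ℝ => Y p.1 p.2 := by
  refine H472.locCont472 K w (ℝ × ℝ) (fun p => Y p.1 p.2) (fun p => (hY p.1 p.2).1) ?_
  intro i j
  have h1 : Continuous fun p : ℝ × ℝ => rotZ p.1 * rotY p.2 * torus d :=
    ((continuous_rotZ600.comp continuous_fst).matrix_mul
      (continuous_rotY600.comp continuous_snd)).matrix_mul continuous_const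
  have h2 : (fun p : ℝ × ℝ => infComp w (Y p.1 p.2) i j)
      = fun p : ℝ × ℝ => (rotZ p.1 * rotY p.2 * torus d) i j := by
    funext p
    rw [(hY p.1 p.2).2]
  rw [h2]
  exact h1.matrix_elem i j

/-! ## 3. The leaf -/

/-- **T2.10.08.03 `WhMeanC`.** -/
theorem whMeanC600 (K : Type) [Field K] [NumberField K] : WhMeanC K := by
  let _ : MeasurableSpace (Adl K) := borel (Adl K)
  have : BorelSpace (Adl K) := ⟨rfl⟩
  intro _hLC ψ ν D hWD Φ hΦc hΦb w hMV
  obtain ⟨hstd, -, -, -, -, -, hfin⟩ := hWD
  obtain ⟨C, hC⟩ := hΦb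
  intro d hd Y hY g
  have : IsFiniteMeasure (ν.restrict D) := ⟨by rw [Measure.restrict_apply_univ]; exact hfin⟩
  have hYc := continuous_family600 w d Y hY
  have hψc : Continuous fun x : Adl K => ((ψ x : Circle) : ℂ) :=
    continuous_subtype_val.comp hstd.cont
  -- the integrand
  set F : Adl K → ℝ → ℝ → ℂ := fun x α β =>
    Φ (T3.unip K x * (g * Y α β)) * (starRingEnd ℂ) ((ψ x : Circle) : ℂ)
      * ((Real.sin β : ℝ) : ℂ) with hFdef
  have hFc : Continuous fun q : (ℝ × ℝ) × Adl K => F q.2 q.1.1 q.1.2 := by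
    have h1 : Continuous fun q : (ℝ × ℝ) × Adl K => T3.unip K q.2 * (g * Y q.1.1 q.1.2) :=
      (continuous_unip600.comp continuous_snd).mul
        (continuous_const.mul (hYc.comp continuous_fst))
    have h2 : Continuous fun q : (ℝ × ℝ) × Adl K =>
        (starRingEnd ℂ) ((ψ q.2 : Circle) : ℂ) :=
      Complex.continuous_conj.comp (hψc.comp continuous_snd)
    have h3 : Continuous fun q : (ℝ × ℝ) × Adl K => ((Real.sin q.1.2 : ℝ) : ℂ) :=
      Complex.continuous_ofReal.comp
        (Real.continuous_sin.comp (continuous_snd.comp continuous_fst))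
    exact ((hΦc.comp h1).mul h2).mul h3
  have hFb : ∀ x a b, ‖F x a b‖ ≤ |C| := by
    intro x a b
    simp only [hFdef, norm_mul, RCLike.norm_conj, Circle.norm_coe, mul_one,
      Complex.norm_real, Real.norm_eq_abs]
    calc ‖Φ (T3.unip K x * (g * Y a b))‖ * |Real.sin b|
        ≤ |C| * 1 := by
          refine mul_le_mul ((hC _).trans (le_abs_self C)) (Real.abs_sin_le_one b)
            (abs_nonneg _) (abs_nonneg _)
      _ = |C| := mul_one _
  have hswap := fubini_rect600 (ν.restrict D) F hFc |C| hFb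
    (a₁ := 0) (a₂ := 2 * Real.pi) (b₁ := 0) (b₂ := Real.pi)
    (by positivity) Real.pi_pos.le
  -- left-hand side
  have hL : (∫ α in (0 : ℝ)..(2 * Real.pi), ∫ β in (0 : ℝ)..Real.pi,
        wh ψ ν D Φ (g * Y α β) * ((Real.sin β : ℝ) : ℂ))
      = ∫ α in (0 : ℝ)..(2 * Real.pi), ∫ β in (0 : ℝ)..Real.pi,
          ∫ x, F x α β ∂(ν.restrict D) := by
    refine intervalIntegral.integral_congr fun α _ => ?_
    refine intervalIntegral.integral_congr fun β _ => ?_
    show wh ψ ν D Φ (g * Y α β) * ((Real.sin β : ℝ) : ℂ) = ∫ x, F x α β ∂(ν.restrict D)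
    rw [wh, ← integral_mul_const]
  -- right-hand side
  have hR : ∀ x : Adl K, (∫ α in (0 : ℝ)..(2 * Real.pi), ∫ β in (0 : ℝ)..Real.pi, F x α β)
      = ((4 * Real.pi * (d / Real.sinh d) : ℝ) : ℂ)
          * (Φ (T3.unip K x * g) * (starRingEnd ℂ) ((ψ x : Circle) : ℂ)) := by
    intro x
    have h := hMV d hd Y hY (T3.unip K x * g)
    have h' : (∫ α in (0 : ℝ)..(2 * Real.pi), ∫ β in (0 : ℝ)..Real.pi, F x α β)
        = (∫ α in (0 : ℝ)..(2 * Real.pi), ∫ β in (0 : ℝ)..Real.pi,
            Φ (T3.unip K x * g * Y α β) * ((Real.sin β : ℝ) : ℂ))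
          * (starRingEnd ℂ) ((ψ x : Circle) : ℂ) := by
      rw [← intervalIntegral.integral_mul_const]
      refine intervalIntegral.integral_congr fun α _ => ?_
      show (∫ β in (0 : ℝ)..Real.pi, F x α β) = _
      rw [← intervalIntegral.integral_mul_const]
      refine intervalIntegral.integral_congr fun β _ => ?_
      show F x α β = _
      simp only [hFdef, mul_assoc]
      ring
    rw [h', h]
    ring
  rw [hL, hswap]
  simp only [hR]
  rw [integral_const_mul]
  rfl

end Fermat.Agent.LT.T2.H600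

end
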